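import Fermat.Agent.S55.E.Loc

/-!
# S55, layer E: `Rep.dualTwist` versus `dualRho`
-/

set_option autoImplicit false

namespace Fermat.Agent.S55.E

open Fermat.Agent.S55 ExtCitation groupCohomology

/-- the twisted dual of a smooth finite module is smooth -/
theorem smooth_dualRho {G : Type*} [Group G] {𝓛 : Lvl G} {p : ℕ} {χ : G →* (ZMod p)ˣ}
    {A : Type*} [AddCommGroup A] [Finite A] {ρ : G →* AddMonoid.End A}
    (hχ : Smooth 𝓛 (rhoChi χ)) (hρ : Smooth 𝓛 ρ) : Smooth 𝓛 (dualRho χ ρ) := by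
  intro φ
  obtain ⟨U, hU, h⟩ := hχ 1
  obtain ⟨V, hV, h'⟩ := smooth_uniform hρ
  obtain ⟨W, hW, hWU⟩ := 𝓛.inter U hU V hV
  refine ⟨W, hW, fun u hu => ?_⟩
  ext a
  have h1 := h u (hWU hu).1
  rw [rhoChi_apply, mul_one] at h1
  rw [dualRho_apply, h1, one_mul, h' u⁻¹ (V.inv_mem (hWU hu).2)]

variable {p : ℕ} [Fact p.Prime] {G : Type} [Group G] (M : Rep.{0} (ZMod p) G) (χ : G →* (ZMod p)ˣ)

/-- additive maps to `ZMod p` are linear -/
def dualEquiv : (M →+ ZMod p) ≃+ ↑(M.dualTwist χ) where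
  toFun φ := (AddMonoidHom.toZModLinearMap p φ : M →ₗ[ZMod p] ZMod p)
  invFun l := (show M →ₗ[ZMod p] ZMod p from l).toAddMonoidHom
  left_inv _ := rfl
  right_inv _ := rfl
  map_add' _ _ := rfl

theorem dualEquiv_rho (g : G) (φ : M →+ ZMod p) :
    dualEquiv M χ (dualRho χ (rhoOf M) g φ) = (M.dualTwist χ).ρ g (dualEquiv M χ φ) := by
  rw [Rep.dualTwist_ρ_apply]
  rfl

end Fermat.Agent.S55.E
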