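import Fermat.Agent.S55.E.Inertia

/-!
# S55, layer E: the mod `p` cyclotomic character factors through `ℚ(μ_p)`
-/

set_option autoImplicit false

namespace Fermat.Agent.S55.E

open ExtCitation

local notation "Qbar" => AlgebraicClosure ℚ
local notation "GQ" => (AlgebraicClosure ℚ ≃ₐ[ℚ] AlgebraicClosure ℚ)

local instance isAlgebraicQbar_e4 : Algebra.IsAlgebraic ℚ (AlgebraicClosure ℚ) :=
  AlgebraicClosure.isAlgebraic ℚ

variable (p : ℕ) [Fact p.Prime]

/-- the characterising property of `cycloChar` -/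
theorem cycloChar_spec (σ : GQ) {t : Qbar} (ht : t ^ p = 1) :
    σ t = t ^ ((cycloChar p σ : (ZMod p)ˣ) : ZMod p).val := by
  have : NeZero p := ⟨(Fact.out : p.Prime).ne_zero⟩
  have hu : IsUnit t := IsUnit.of_pow_eq_one ht (NeZero.ne p)
  obtain ⟨u, rfl⟩ := hu
  have hmem : u ∈ rootsOfUnity p Qbar := by
    rw [mem_rootsOfUnity]
    exact Units.ext (by simpa using ht)
  exact modularCyclotomicCharacter.spec Qbar (card_rootsOfUnity_eq_self p)
    (σ : Qbar ≃+* Qbar) hmem

/-- `σ` fixing all `p`-th roots of unity has `cycloChar p σ = 1` -/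
theorem cycloChar_eq_one (σ : GQ) (h : ∀ t : Qbar, t ^ p = 1 → σ t = t) : cycloChar p σ = 1 := by
  have : NeZero p := ⟨(Fact.out : p.Prime).ne_zero⟩
  have : Fact (1 < p) := ⟨(Fact.out : p.Prime).one_lt⟩
  have h1 := modularCyclotomicCharacter.unique Qbar (card_rootsOfUnity_eq_self p)
    (σ : Qbar ≃+* Qbar) (c := 1) (fun t ht => by
      rw [ZMod.val_one, pow_one]
      refine h t ?_
      have := (mem_rootsOfUnity _ _).1 ht
      rw [← Units.val_pow_eq_pow_val, this, Units.val_one])
  exact Units.ext h1.symm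

/-- the field `ℚ(μ_p)` -/
noncomputable def cycloField : IntermediateField ℚ Qbar :=
  IntermediateField.adjoin ℚ {t : Qbar | t ^ p = 1}

theorem finite_roots : {t : Qbar | t ^ p = 1}.Finite := by
  have hp : 0 < p := (Fact.out : p.Prime).pos
  have h := (Polynomial.nthRootsFinset p (1 : Qbar)).finite_toSet
  refine h.subset fun t ht => ?_
  simp only [Finset.mem_coe]
  exact (Polynomial.mem_nthRootsFinset hp 1).2 ht

theorem finiteDimensional_cycloField : FiniteDimensional ℚ (cycloField p) := by
  have : Finite {t : Qbar | t ^ p = 1} := (finite_roots p).to_subtype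
  exact IntermediateField.finiteDimensional_adjoin
    (fun x _ => (Algebra.IsAlgebraic.isAlgebraic x).isIntegral)

theorem cycloChar_eq_one_of_mem {σ : GQ} (h : σ ∈ (cycloField p).fixingSubgroup) :
    cycloChar p σ = 1 :=
  cycloChar_eq_one p σ fun t ht =>
    (IntermediateField.mem_fixingSubgroup_iff _ σ).1 h t (IntermediateField.subset_adjoin ℚ _ ht)

end Fermat.Agent.S55.E
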