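import Fermat.Agent.S55.Coh.Arith
import Fermat.Agent.S55.E.Chi

/-!
# S55, layer E: open subgroups containing all inertia groups outside `S` are `S`-levels
-/

set_option autoImplicit false

namespace Fermat.Agent.S55.E

open Fermat.Agent.S55 ExtCitation

local instance isAlgebraicQbar_e5 : Algebra.IsAlgebraic ℚ (AlgebraicClosure ℚ) :=
  AlgebraicClosure.isAlgebraic ℚ
local instance isAlgClosureQbar_e5 : IsAlgClosure ℚ (AlgebraicClosure ℚ) :=
  ⟨inferInstance, inferInstance⟩
local instance normalQbar_e5 : Normal ℚ (AlgebraicClosure ℚ) :=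
  IsAlgClosure.normal ℚ (AlgebraicClosure ℚ)
local instance isGaloisQbar_e5 : IsGalois ℚ (AlgebraicClosure ℚ) := ⟨⟩

/-- an open subgroup is the fixing subgroup of a number field -/
theorem exists_field_of_open (U : Subgroup GQ) (F : IntermediateField ℚ Qb)
    (hF : FiniteDimensional ℚ F) (hle : F.fixingSubgroup ≤ U) :
    ∃ F' : IntermediateField ℚ Qb, FiniteDimensional ℚ F' ∧ F'.fixingSubgroup = U := by
  have hopen : IsOpen (U : Set GQ) := Subgroup.isOpen_mono hle F.fixingSubgroup_isOpen
  have hclosed : IsClosed (U : Set GQ) := Subgroup.isClosed_of_isOpen U hopen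
  have h1 := InfiniteGalois.fixingSubgroup_fixedField (k := ℚ) (K := Qb) ⟨U, hclosed⟩
  refine ⟨IntermediateField.fixedField U, ?_, h1⟩
  have h2 : IntermediateField.fixedField U ≤ F := by
    rw [← InfiniteGalois.fixedField_fixingSubgroup F]
    exact IntermediateField.fixedField_antitone hle
  exact FiniteDimensional.of_injective (IntermediateField.inclusion h2).toLinearMap
      (IntermediateField.inclusion_injective h2)

/-- an open subgroup containing all inertia groups outside `S` is an `S`-level -/
theorem mem_lvlS_of_open (S : Finset Nat.Primes) (U : Subgroup GQ) (F : IntermediateField ℚ Qb)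
    (hF : FiniteDimensional ℚ F) (hle : F.fixingSubgroup ≤ U)
    (hI : ∀ q : Nat.Primes, q ∉ S → ∀ A : ValuationSubring Qb, A.LiesOverPrime (q : ℕ) →
      A.inertiaSubgroupIn ℚ ≤ U) : U ∈ (lvlS S).sets := by
  obtain ⟨F', hF', rfl⟩ := exists_field_of_open U F hF hle
  exact ⟨F', ⟨hF', hI⟩, rfl⟩

/-- a smooth action which is unramified outside `S` is smooth for the `S`-levels -/
theorem smooth_lvlS {A : Type*} [AddCommGroup A] (S : Finset Nat.Primes)
    (ρ : GQ →* AddMonoid.End A) (hρ : Smooth lvlQ ρ)
    (hI : ∀ q : Nat.Primes, q ∉ S → ∀ B : ValuationSubring Qb, B.LiesOverPrime (q : ℕ) →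
      ∀ g ∈ B.inertiaSubgroupIn ℚ, ρ g = 1) : Smooth (lvlS S) ρ := by
  intro a
  obtain ⟨_, ⟨F, hF, rfl⟩, h⟩ := hρ a
  let U : Subgroup GQ :=
    { carrier := {g | ρ g a = a}
      mul_mem' := fun {g h} hg hh => by
        change ρ (g * h) a = a
        rw [map_mul, AddMonoid.End.coe_mul, Function.comp_apply, hh, hg]
      one_mem' := by
        change ρ 1 a = a
        rw [map_one]; rfl
      inv_mem' := fun {g} hg => by
        change ρ g⁻¹ a = a
        have h1 : ρ g⁻¹ (ρ g a) = a := by
          rw [← Function.comp_apply (f := ρ g⁻¹), ← AddMonoid.End.coe_mul, ← map_mul,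
            inv_mul_cancel, map_one]; rfl
        rwa [hg] at h1 }
  refine ⟨U, mem_lvlS_of_open S U F hF h (fun q hq B hB g hg => ?_), fun u hu => hu⟩
  change ρ g a = a
  rw [hI q hq B hB g hg]; rfl

end Fermat.Agent.S55.E
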