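import Mathlib
import Fermat.Prelude.Def_GaloisRep_CompletionBridge

/-!
# S55, layer E: the image of `localGaloisToGlobal q` is dense in the decomposition group of `padicPlace q`
-/

set_option autoImplicit false

open scoped NNReal Pointwise

namespace Fermat.Agent.S55.E

variable (q : ℕ) [Fact q.Prime]

local notation "GQ" => (AlgebraicClosure ℚ ≃ₐ[ℚ] AlgebraicClosure ℚ)

local instance isAlgebraicQbar_e : Algebra.IsAlgebraic ℚ (AlgebraicClosure ℚ) :=
  AlgebraicClosure.isAlgebraic ℚ
local instance isAlgClosureQbar_e : IsAlgClosure ℚ (AlgebraicClosure ℚ) :=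
  ⟨inferInstance, inferInstance⟩
local instance normalQbar_e : Normal ℚ (AlgebraicClosure ℚ) :=
  IsAlgClosure.normal ℚ (AlgebraicClosure ℚ)
local instance isGaloisQbar_e : IsGalois ℚ (AlgebraicClosure ℚ) := ⟨⟩

theorem mem_padicPlace_iff_norm {x : AlgebraicClosure ℚ} :
    x ∈ padicPlace q ↔ ‖padicEmbedding q x‖ ≤ 1 := by
  rw [mem_padicPlace_iff, ← NNReal.coe_le_coe]; rfl

theorem smul_mem_iff {σ : GQ} (hσ : σ ∈ (padicPlace q).decompositionSubgroup ℚ)
    (x : AlgebraicClosure ℚ) : σ x ∈ padicPlace q ↔ x ∈ padicPlace q := by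
  have h : σ • padicPlace q = padicPlace q := hσ
  constructor
  · intro hx
    have h2 : σ x ∈ σ • padicPlace q := by rw [h]; exact hx
    rw [ValuationSubring.mem_pointwise_smul_iff_inv_smul_mem] at h2
    simpa [AlgEquiv.smul_def] using h2
  · intro hx
    rw [← h, ValuationSubring.mem_pointwise_smul_iff_inv_smul_mem]
    simpa [AlgEquiv.smul_def] using hx

theorem norm_padicEmbedding_natCast_zpow (k : ℤ) :
    ‖padicEmbedding q ((q : AlgebraicClosure ℚ) ^ k)‖ = (q : ℝ) ^ (-k) := by
  rw [map_zpow₀, map_natCast, norm_zpow, ← map_natCast (algebraMap ℚ_[q] (PadicAlgCl q)),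
    PadicAlgCl.norm_extends, Padic.norm_p, inv_zpow, zpow_neg]

theorem norm_le_of_mem_decomposition {σ : GQ} (hσ : σ ∈ (padicPlace q).decompositionSubgroup ℚ)
    (x : AlgebraicClosure ℚ) : ‖padicEmbedding q (σ x)‖ ≤ ‖padicEmbedding q x‖ := by
  by_contra hlt
  rw [not_le] at hlt
  have hq1 : (1 : ℝ) < q := by exact_mod_cast (Fact.out : q.Prime).one_lt
  rcases eq_or_ne x 0 with rfl | hx
  · simp at hlt
  set a := ‖padicEmbedding q x‖ with ha
  set b := ‖padicEmbedding q (σ x)‖ with hb
  have ha0 : 0 < a := by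
    rw [ha, norm_pos_iff]
    exact (map_ne_zero _).mpr hx
  have hba : 1 < b / a := (one_lt_div ha0).mpr hlt
  obtain ⟨n, hn⟩ := pow_unbounded_of_one_lt (q : ℝ) hba
  have hn0 : n ≠ 0 := by
    rintro rfl
    rw [pow_zero] at hn
    linarith
  -- a power of q in [a^n, q a^n)
  obtain ⟨k, hk1, hk2⟩ := exists_mem_Ioc_zpow (pow_pos ha0 n) hq1
  -- q^k < a^n ≤ q^(k+1) < b^n
  have h3 : (q : ℝ) ^ (k + 1) < b ^ n := by
    rw [zpow_add_one₀ (by positivity)]
    have : (b / a) ^ n * a ^ n = b ^ n := by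
      rw [← mul_pow, div_mul_cancel₀ _ ha0.ne']
    rw [← this, mul_comm]
    exact mul_lt_mul hn hk1.le (by positivity) (by positivity)
  set y : AlgebraicClosure ℚ := x ^ n * (q : AlgebraicClosure ℚ) ^ (k + 1) with hy
  have hy1 : y ∈ padicPlace q := by
    rw [mem_padicPlace_iff_norm, hy, map_mul, norm_mul, map_pow, norm_pow,
      norm_padicEmbedding_natCast_zpow, zpow_neg, ← ha, ← div_eq_mul_inv,
      div_le_one (by positivity)]
    exact hk2
  have hy2 : σ y ∉ padicPlace q := by
    rw [mem_padicPlace_iff_norm, hy, map_mul, map_mul, norm_mul, map_pow, map_pow, norm_pow,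
      map_zpow₀, map_natCast, norm_padicEmbedding_natCast_zpow, zpow_neg, ← hb, ← div_eq_mul_inv,
      div_le_one (by positivity), not_le]
    exact h3
  exact hy2 ((smul_mem_iff q hσ y).mpr hy1)

theorem norm_eq_of_mem_decomposition {σ : GQ} (hσ : σ ∈ (padicPlace q).decompositionSubgroup ℚ)
    (x : AlgebraicClosure ℚ) : ‖padicEmbedding q (σ x)‖ = ‖padicEmbedding q x‖ := by
  refine le_antisymm (norm_le_of_mem_decomposition q hσ x) ?_
  have := norm_le_of_mem_decomposition q (inv_mem hσ) (σ x)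
  simpa using this

/-- an element of `ℚ̄` fixed by the image of the local Galois group is fixed by the decomposition group -/
theorem fixed_of_fixed_local {σ : GQ} (hσ : σ ∈ (padicPlace q).decompositionSubgroup ℚ)
    (z : AlgebraicClosure ℚ) (hz : ∀ τ, localGaloisToGlobal q τ z = z) : σ z = z := by
  have h1 : padicEmbedding q z ∈ Set.range (algebraMap ℚ_[q] (PadicAlgCl q)) := by
    rw [InfiniteGalois.mem_range_algebraMap_iff_fixed]
    intro τ
    rw [← padicEmbedding_localGaloisToGlobal, hz]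
  obtain ⟨c, hc⟩ := h1
  have h2 : ∀ ε : ℝ, 0 < ε → ‖padicEmbedding q (σ z) - padicEmbedding q z‖ < ε := by
    intro ε hε
    obtain ⟨r, hr⟩ := Padic.rat_dense q c (half_pos hε)
    have e1 : ‖padicEmbedding q (z - algebraMap ℚ _ r)‖ < ε / 2 := by
      rw [map_sub, AlgHom.commutes, ← hc,
        IsScalarTower.algebraMap_apply ℚ ℚ_[q] (PadicAlgCl q), ← map_sub,
        PadicAlgCl.norm_extends]
      simpa using hr
    have e2 : ‖padicEmbedding q (σ (z - algebraMap ℚ _ r))‖ < ε / 2 := by
      rw [norm_eq_of_mem_decomposition q hσ]; exact e1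
    rw [map_sub, AlgEquiv.commutes] at e2
    have e3 : padicEmbedding q (σ z) - padicEmbedding q z =
        padicEmbedding q (σ z - algebraMap ℚ _ r) - padicEmbedding q (z - algebraMap ℚ _ r) := by
      rw [map_sub, map_sub]; ring
    rw [e3]
    calc _ ≤ ‖padicEmbedding q (σ z - algebraMap ℚ _ r)‖ + ‖padicEmbedding q (z - algebraMap ℚ _ r)‖ :=
          norm_sub_le _ _
      _ < ε / 2 + ε / 2 := add_lt_add e2 e1
      _ = ε := by ring
  have h3 : padicEmbedding q (σ z) - padicEmbedding q z = 0 := by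
    by_contra hne
    exact lt_irrefl _ (h2 _ (norm_pos_iff.mpr hne))
  exact (padicEmbedding q).injective (sub_eq_zero.mp h3)

/-- **Density**: on every number field, an element of the decomposition group of `padicPlace q` agrees with
the image of a local Galois automorphism. -/
theorem exists_local_eq {σ : GQ} (hσ : σ ∈ (padicPlace q).decompositionSubgroup ℚ)
    (F : IntermediateField ℚ (AlgebraicClosure ℚ)) [FiniteDimensional ℚ F] :
    ∃ τ, ∀ x ∈ F, localGaloisToGlobal q τ x = σ x := by
  let N : IntermediateField ℚ (AlgebraicClosure ℚ) := IntermediateField.normalClosure ℚ F _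
  have hFN : F ≤ N := IntermediateField.le_normalClosure F
  have hstab : ∀ (g : GQ) (x : AlgebraicClosure ℚ), x ∈ N → g x ∈ N := by
    intro g x hx
    have hN : Normal ℚ N := normalClosure.normal ℚ F (AlgebraicClosure ℚ)
    have := IntermediateField.normal_iff_forall_map_le'.mp hN g
    exact this ⟨x, hx, rfl⟩
  let H : Subgroup GQ :=
    { carrier := {g | ∃ τ, ∀ x ∈ N, g x = localGaloisToGlobal q τ x}
      one_mem' := ⟨1, fun x _ => by simp⟩
      mul_mem' := by
        rintro g g' ⟨τ, hτ⟩ ⟨τ', hτ'⟩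
        refine ⟨τ * τ', fun x hx => ?_⟩
        rw [map_mul, AlgEquiv.mul_apply, AlgEquiv.mul_apply, hτ' x hx, hτ _ (hstab _ x hx)]
      inv_mem' := by
        rintro g ⟨τ, hτ⟩
        refine ⟨τ⁻¹, fun x hx => ?_⟩
        have h1 : g⁻¹ x ∈ N := hstab _ x hx
        have h2 := hτ _ h1
        rw [map_inv]
        have h3 : g (g⁻¹ x) = x := by
          rw [← AlgEquiv.mul_apply, mul_inv_cancel, AlgEquiv.one_apply]
        rw [h3] at h2
        conv_rhs => rw [h2, ← AlgEquiv.mul_apply, inv_mul_cancel, AlgEquiv.one_apply] }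
  have hle : N.fixingSubgroup ≤ H := by
    intro g hg
    refine ⟨1, fun x hx => ?_⟩
    rw [map_one, AlgEquiv.one_apply]
    exact (IntermediateField.mem_fixingSubgroup_iff N g).mp hg x hx
  have hNfin : FiniteDimensional ℚ N := normalClosure.is_finiteDimensional ℚ F (AlgebraicClosure ℚ)
  have hopen : IsOpen (H : Set GQ) := Subgroup.isOpen_mono hle N.fixingSubgroup_isOpen
  have hclosed : IsClosed (H : Set GQ) := Subgroup.isClosed_of_isOpen H hopen
  have hfix := InfiniteGalois.fixingSubgroup_fixedField (⟨H, hclosed⟩ : ClosedSubgroup GQ)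
  have hmem : σ ∈ (IntermediateField.fixedField H).fixingSubgroup := by
    rw [IntermediateField.mem_fixingSubgroup_iff]
    intro z hz
    refine fixed_of_fixed_local q hσ z fun τ => ?_
    exact (IntermediateField.mem_fixedField_iff H z).mp hz _ ⟨τ, fun _ _ => rfl⟩
  have hσH : σ ∈ H := by
    have : (IntermediateField.fixedField H).fixingSubgroup = H := hfix
    rw [this] at hmem
    exact hmem
  obtain ⟨τ, hτ⟩ := hσH
  exact ⟨τ, fun x hx => (hτ x (hFN hx)).symm⟩

end Fermat.Agent.S55.E
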