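import Fermat.Agent.S55.E.Inertia

/-!
# S55, layer E: fixing subgroups of number fields have finite index; normal closures
(the structure fields of `lvlQ`, `lvlS S`)
-/

set_option autoImplicit false

namespace Fermat.Agent.S55.E

local notation "Qbar" => AlgebraicClosure ℚ
local notation "GQ" => (AlgebraicClosure ℚ ≃ₐ[ℚ] AlgebraicClosure ℚ)

local instance isAlgebraicQbar_e3 : Algebra.IsAlgebraic ℚ (AlgebraicClosure ℚ) :=
  AlgebraicClosure.isAlgebraic ℚ
local instance isAlgClosureQbar_e3 : IsAlgClosure ℚ (AlgebraicClosure ℚ) :=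
  ⟨inferInstance, inferInstance⟩
local instance normalQbar_e3 : Normal ℚ (AlgebraicClosure ℚ) :=
  IsAlgClosure.normal ℚ (AlgebraicClosure ℚ)
local instance isGaloisQbar_e3 : IsGalois ℚ (AlgebraicClosure ℚ) := ⟨⟩

theorem finiteIndex_fixingSubgroup (F : IntermediateField ℚ Qbar) (hF : FiniteDimensional ℚ F) :
    F.fixingSubgroup.FiniteIndex := by
  refine ⟨?_⟩
  rw [← IntermediateField.finrank_eq_fixingSubgroup_index]
  exact Module.finrank_pos.ne'

theorem normal_fixingSubgroup_normalClosure (F : IntermediateField ℚ Qbar) :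
    (IntermediateField.normalClosure ℚ F Qbar).fixingSubgroup.Normal := by
  have : Normal ℚ (IntermediateField.normalClosure ℚ F Qbar) := normalClosure.normal ℚ F Qbar
  have : IsGalois ℚ (IntermediateField.normalClosure ℚ F Qbar) := ⟨⟩
  infer_instance

theorem fixingSubgroup_normalClosure_le (F : IntermediateField ℚ Qbar) :
    (IntermediateField.normalClosure ℚ F Qbar).fixingSubgroup ≤ F.fixingSubgroup :=
  IntermediateField.fixingSubgroup_antitone F.le_normalClosure

end Fermat.Agent.S55.E
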