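import Fermat.Agent.S55.E.H2

/-!
# S55, layer E: `continuousH1S`, `sha₁` of the Prelude versus `H1 (lvlS S)`, `Sha1S`
-/

set_option autoImplicit false

namespace Fermat.Agent.S55.E

open Fermat.Agent.S55 ExtCitation groupCohomology CategoryTheory

variable {K : Type} [Field K] (S : Finset Nat.Primes) (A : Rep.{0} K GQ)
variable {X : Type} [AddCommGroup X] (ρ : GQ →* AddMonoid.End X) (e : X ≃+ A)
  (he : ∀ g x, e (ρ g x) = A.ρ g (e x))

/-- unfolding of the Mathlib restriction map on representatives -/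
theorem map_H1π_eq_zero_iff {H : Type} [Group H] (r : H →* GQ) (c : cocycles₁ A) :
    (groupCohomology.map r (𝟙 (Rep.res r A)) 1).hom (H1π A c) = 0 ↔
      ∃ a : A, ∀ t, c (r t) = A.ρ (r t) a - a := by
  have h0 : (groupCohomology.map r (𝟙 (Rep.res r A)) 1).hom (H1π A c) =
      H1π (Rep.res r A) (mapCocycles₁ r (𝟙 (Rep.res r A)) c) :=
    H1π_comp_map_apply r (𝟙 (Rep.res r A)) c
  rw [h0, H1π_eq_zero_iff]
  constructor
  · rintro ⟨a, ha⟩
    refine ⟨a, fun t => ?_⟩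
    have := congrFun ha t
    exact this.symm
  · rintro ⟨a, ha⟩
    refine ⟨a, ?_⟩
    ext t
    exact (ha t).symm

include he in
theorem comp_mem_cocycles₁ (f : ↥(Z1 (lvlS S) ρ)) :
    (fun g => e ((f : GQ → X) g)) ∈ cocycles₁ A :=
  (mem_cocycles₁_iff _).2 fun g h => by rw [f.2.2, map_add, he]

/-- 1-cocycles -/
def toCoc1 : ↥(Z1 (lvlS S) ρ) →+ ↥(cocycles₁ A) where
  toFun f := ⟨fun g => e ((f : GQ → X) g), comp_mem_cocycles₁ S A ρ e he f⟩
  map_zero' := by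
    ext g
    exact map_zero e
  map_add' a b := by
    ext g
    exact map_add e _ _

@[simp] theorem toCoc1_apply (f : ↥(Z1 (lvlS S) ρ)) (g : GQ) :
    toCoc1 S A ρ e he f g = e ((f : GQ → X) g) := rfl

theorem toCoc1_mem_iff (f : ↥(Z1 (lvlS S) ρ)) :
    ⇑(toCoc1 S A ρ e he f) ∈ coboundaries₁ A ↔ (f : GQ → X) ∈ B1 (lvlS S) ρ := by
  rw [mem_B1]
  constructor
  · rintro ⟨a, ha⟩
    refine ⟨f.2.1, e.symm a, ?_⟩
    ext g
    have := congrFun ha g
    rw [d₀₁_hom_apply, toCoc1_apply] at this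
    apply e.injective
    rw [← this, d0_apply, map_sub, he, e.apply_symm_apply]
  · rintro ⟨_, a, ha⟩
    refine ⟨e a, ?_⟩
    ext g
    rw [d₀₁_hom_apply, toCoc1_apply, ha, d0_apply, map_sub, he]

/-- the comparison map -/
noncomputable def Psi1 : S55.H1 (lvlS S) ρ →+ groupCohomology.H1 A :=
  QuotientAddGroup.lift _ ((H1π A).hom.toAddMonoidHom.comp (toCoc1 S A ρ e he)) (fun f hf => by
    change H1π A (toCoc1 S A ρ e he f) = 0
    rw [H1π_eq_zero_iff, toCoc1_mem_iff]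
    exact AddSubgroup.mem_addSubgroupOf.1 hf)

@[simp] theorem Psi1_mk (f : ↥(Z1 (lvlS S) ρ)) :
    Psi1 S A ρ e he (H1.mk _ _ f) = H1π A (toCoc1 S A ρ e he f) := rfl

theorem Psi1_injective : Function.Injective (Psi1 S A ρ e he) := by
  rw [injective_iff_map_eq_zero]
  intro x hx
  obtain ⟨f, rfl⟩ := H1.mk_surjective _ _ x
  rw [Psi1_mk, H1π_eq_zero_iff, toCoc1_mem_iff] at hx
  exact (H1.mk_eq_zero_iff _ _ f).2 hx

theorem Psi1_mem (x : S55.H1 (lvlS S) ρ) : Psi1 S A ρ e he x ∈ continuousH1S S A := by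
  obtain ⟨f, rfl⟩ := H1.mk_surjective _ _ x
  rw [Psi1_mk, mem_continuousH1S_iff]
  exact ⟨_, (lc1_lvlS_iff _).1 (f.2.1.comp e), rfl⟩

theorem exists_of_mem {y : groupCohomology.H1 A} (hy : y ∈ continuousH1S S A) :
    ∃ x, Psi1 S A ρ e he x = y := by
  obtain ⟨c, hc, rfl⟩ := (mem_continuousH1S_iff S A y).1 hy
  refine ⟨H1.mk _ _ ⟨fun g => e.symm (c g), ((lc1_lvlS_iff _).2 hc).comp e.symm, fun g h => ?_⟩, ?_⟩
  · apply e.injective
    rw [map_add, he, e.apply_symm_apply, e.apply_symm_apply, e.apply_symm_apply]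
    exact (mem_cocycles₁_iff _).1 c.2 g h
  · rw [Psi1_mk]
    congr 1
    ext g
    exact e.apply_symm_apply _

/-! ### the local conditions -/

theorem loc1_infl1_mk_eq_zero_iff (q : Nat.Primes) (f : ↥(Z1 (lvlS S) ρ)) :
    loc1 ρ q (infl1 S ρ (H1.mk _ _ f)) = 0 ↔
      (fun g : ↥(Dq q) => (f : GQ → X) g) ∈ B1 (lvlD q) (ρ.comp (Dq q).subtype) :=
  H1.mk_eq_zero_iff _ _
    (Z1map (LvlMap.comap lvlQ (Dq q).subtype) (isHomAlong_res ρ (Dq q).subtype)
        (Z1map (φ := AddMonoidHom.id X) (ρB := ρ) (lvlMap_infl S) (fun _ _ => rfl) f))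

/-- the condition at a prime -/
theorem locRes_prime_iff (hρ : Smooth lvlQ ρ) (q : Nat.Primes) (f : ↥(Z1 (lvlS S) ρ)) :
    (groupCohomology.map (primeLocalToGlobal q) (𝟙 (Rep.res (primeLocalToGlobal q) A)) 1).hom
        (H1π A (toCoc1 S A ρ e he f)) = 0 ↔
      loc1 ρ q (infl1 S ρ (H1.mk _ _ f)) = 0 := by
  rw [loc1_infl1_mk_eq_zero_iff, map_H1π_eq_zero_iff, mem_B1]
  constructor
  · rintro ⟨a, ha⟩
    refine ⟨lc1_Dq S f.2.1 q, e.symm a, ?_⟩
    refine eq_d0_of_dense (denseHom_locD q) (smooth_Dq hρ q) (lc1_Dq S f.2.1 q) fun t => ?_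
    apply e.injective
    have h1 := ha t
    rw [toCoc1_apply] at h1
    change e ((f : GQ → X) (primeLocalToGlobal q t)) =
      e (ρ (primeLocalToGlobal q t) (e.symm a) - e.symm a)
    rw [h1, map_sub, he, e.apply_symm_apply]
  · rintro ⟨_, x, hx⟩
    refine ⟨e x, fun t => ?_⟩
    have h1 := congrFun hx (locD q t)
    rw [d0_apply] at h1
    change (f : GQ → X) (primeLocalToGlobal q t) = ρ (primeLocalToGlobal q t) x - x at h1
    rw [toCoc1_apply, h1, map_sub, he]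

/-- the condition at the archimedean place is empty -/
theorem locRes_arch (h2 : (2 : K) ≠ 0) (c : cocycles₁ A) :
    (groupCohomology.map archimedeanLoc (𝟙 (Rep.res archimedeanLoc A)) 1).hom (H1π A c) = 0 := by
  have := finite_arch
  have := Fintype.ofFinite ↥archimedeanDecomposition
  obtain ⟨u, hu⟩ := exists_inv_card_arch (k := K) (isUnit_iff_ne_zero.2 h2)
  rw [map_H1π_eq_zero_iff]
  exact exists_d0_of_finite (A.ρ.comp archimedeanLoc) u hu (fun t => c (archimedeanLoc t))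
    (fun g h => by
      rw [map_mul]
      exact (mem_cocycles₁_iff _).1 c.2 (archimedeanLoc g) (archimedeanLoc h))

theorem mem_sha₁_iff (y : groupCohomology.H1 A) :
    y ∈ sha₁ S A ↔ y ∈ continuousH1S S A ∧
      ∀ v, (groupCohomology.map (extArithLoc S v) (𝟙 (Rep.res (extArithLoc S v) A)) 1).hom y = 0 := by
  rw [sha₁, Submodule.mem_inf, LinearMap.mem_ker, funext_iff]
  rfl

theorem Psi1_mem_sha₁_iff (h2 : (2 : K) ≠ 0) (hρ : Smooth lvlQ ρ) (x : S55.H1 (lvlS S) ρ) :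
    Psi1 S A ρ e he x ∈ sha₁ S A ↔ x ∈ Sha1S S ρ := by
  rw [mem_sha₁_iff, and_iff_right (Psi1_mem S A ρ e he x)]
  obtain ⟨f, rfl⟩ := H1.mk_surjective _ _ x
  rw [Psi1_mk]
  constructor
  · intro h q hq
    exact (locRes_prime_iff S A ρ e he hρ q f).1 (h (Sum.inr ⟨q, hq⟩))
  · rintro h (v | ⟨q, hq⟩)
    · exact locRes_arch A h2 _
    · exact (locRes_prime_iff S A ρ e he hρ q f).2 (h q hq)

include he in
/-- `Ш¹`: Prelude versus `Coh` -/
theorem card_sha₁ (h2 : (2 : K) ≠ 0) (hρ : Smooth lvlQ ρ) :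
    Nonempty (↥(Sha1S S ρ) ≃ ↥(sha₁ S A)) := by
  refine ⟨Equiv.ofBijective
    (fun x => ⟨Psi1 S A ρ e he x.1, (Psi1_mem_sha₁_iff S A ρ e he h2 hρ x.1).2 x.2⟩) ⟨?_, ?_⟩⟩
  · intro x y h
    exact Subtype.ext (Psi1_injective S A ρ e he (congrArg Subtype.val h))
  · rintro ⟨y, hy⟩
    obtain ⟨x, rfl⟩ := exists_of_mem S A ρ e he ((mem_sha₁_iff S A y).1 hy).1
    exact ⟨⟨x, (Psi1_mem_sha₁_iff S A ρ e he h2 hρ x).1 hy⟩, rfl⟩

end Fermat.Agent.S55.E
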