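import Mathlib

/-!
# S55, layer E: two finite vector spaces of the same cardinality carry a perfect pairing
-/

set_option autoImplicit false

namespace Fermat.Agent.S55.E

theorem exists_pairing {k : Type*} [Field k] [Finite k] {V W : Type*} [AddCommGroup V] [Module k V]
    [AddCommGroup W] [Module k W] [Finite V] [Finite W] (h : Nat.card V = Nat.card W) :
    ∃ B : V →ₗ[k] W →ₗ[k] k,
      (∀ y, (∀ x, B y x = 0) → y = 0) ∧ (∀ x, (∀ y, B y x = 0) → x = 0) := by
  have hV : FiniteDimensional k V := Module.Finite.of_finite
  have hW : FiniteDimensional k W := Module.Finite.of_finite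
  have hr : Module.finrank k V = Module.finrank k W := by
    rw [Module.natCard_eq_pow_finrank (K := k) (V := V),
      Module.natCard_eq_pow_finrank (K := k) (V := W)] at h
    exact Nat.pow_right_injective (Finite.one_lt_card (α := k)) h
  let e : V ≃ₗ[k] Module.Dual k W :=
    LinearEquiv.ofFinrankEq V (Module.Dual k W) (by rw [Subspace.dual_finrank_eq, hr])
  refine ⟨e.toLinearMap, fun y hy => ?_, fun x hx => ?_⟩
  · have : e y = 0 := LinearMap.ext hy
    exact e.map_eq_zero_iff.1 this
  · refine (Module.forall_dual_apply_eq_zero_iff k x).1 fun φ => ?_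
    have := hx (e.symm φ)
    simpa using this

end Fermat.Agent.S55.E
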