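import Fermat.Agent.S55.Core
import Fermat.Agent.S55.E.H1
import Fermat.Agent.S55.E.Dual
import Fermat.Agent.S55.E.Smooth
import Fermat.Agent.S55.E.Pair

/-!
# S55, layer E: the frozen statement follows from `Core.core`
-/

set_option autoImplicit false

namespace Fermat.Agent.S55.E

open Fermat.Agent.S55 groupCohomology ExtCitation

variable {p : ℕ} [Fact p.Prime] (S : Finset Nat.Primes) (M : Rep.{0} (ZMod p) GQ)

theorem two_ne_zero_of_ne (hp2 : p ≠ 2) : (2 : ZMod p) ≠ 0 := by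
  intro h
  have h3 : ((2 : ℕ) : ZMod p) = 0 := by exact_mod_cast h
  rw [ZMod.natCast_eq_zero_iff] at h3
  exact hp2 ((Nat.prime_dvd_prime_iff_eq Fact.out Nat.prime_two).1 h3)

theorem card_sha₁_dual [Finite M] (h2 : (2 : ZMod p) ≠ 0) (hQ : Smooth lvlQ (rhoOf M)) :
    Nonempty (↥(Sha1S S (dualRho (cycloChar p) (rhoOf M))) ≃
      ↥(sha₁ S (M.dualTwist (cycloChar p)))) := by
  have h3 := smooth_dualRho (smooth_rhoT p) hQ
  have h4 := dualEquiv_rho M (cycloChar p)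
  exact card_sha₁ S (M.dualTwist (cycloChar p)) (dualRho (cycloChar p) (rhoOf M))
    (dualEquiv M (cycloChar p)) h4 h2 h3

theorem final (hp2 : p ≠ 2) (hpS : pPrime p ∈ S) [Finite M]
    (hsm : ∀ m : M, ∃ F : IntermediateField ℚ (AlgebraicClosure ℚ), FiniteDimensional ℚ F ∧
      ∀ s ∈ F.fixingSubgroup, M.ρ s m = m)
    (hMur : ∀ q : Nat.Primes, q ∉ S → ∀ A : ValuationSubring (AlgebraicClosure ℚ),
      A.LiesOverPrime (q : ℕ) → ∀ g ∈ A.inertiaSubgroupIn ℚ, M.ρ g = 1) :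
    ∃ B : sha₁ S (M.dualTwist (cycloChar p)) →ₗ[ZMod p] sha₂ S M →ₗ[ZMod p] ZMod p,
      (∀ y, (∀ x, B y x = 0) → y = 0) ∧ (∀ x, (∀ y, B y x = 0) → x = 0) := by
  have hQ : Smooth lvlQ (rhoOf M) := fun m => by
    obtain ⟨F, hF, h⟩ := hsm m
    exact ⟨_, ⟨F, hF, rfl⟩, h⟩
  have hS : Smooth (lvlS S) (rhoOf M) := smooth_lvlS S (rhoOf M) hQ
    (fun q hq B hB g hg => by
      ext x
      rw [rhoOf_apply, hMur q hq B hB g hg]
      rfl)
  have hpA : ∀ a : M, p • a = 0 := fun a => by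
    rw [← Nat.cast_smul_eq_nsmul (ZMod p), ZMod.natCast_self, zero_smul]
  obtain ⟨f2, f1, hcard⟩ := core hp2 S hpS hpA (rhoOf M) hS
  have h2 : (2 : ZMod p) ≠ 0 := two_ne_zero_of_ne hp2
  have e1 := (card_sha₁_dual S M h2 hQ).some
  have e2 := (card_sha₂ S M (isUnit_iff_ne_zero.2 h2) hQ).some
  have : Finite (sha₁ S (M.dualTwist (cycloChar p))) := Finite.of_equiv _ e1
  have : Finite (sha₂ S M) := Finite.of_equiv _ e2
  exact exists_pairing (by rw [← Nat.card_congr e1, ← Nat.card_congr e2, hcard])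

end Fermat.Agent.S55.E
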