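import Fermat.Agent.S55.Coh.Defs

/-!
# S55, layer E: abstract lemmas

* uniform smoothness of finite modules,
* coboundaries descend along a homomorphism with dense image,
* cohomology of a finite group whose order is invertible on the coefficients vanishes.
-/

set_option autoImplicit false

namespace Fermat.Agent.S55.E

open Fermat.Agent.S55

section Dense

variable {G H : Type*} [Group G] [Group H] (𝓛 : Lvl G)
variable {A : Type*} [AddCommGroup A] (ρ : G →* AddMonoid.End A)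

variable {𝓛 ρ} in
theorem exists_level_finset (hρ : Smooth 𝓛 ρ) (s : Finset A) :
    ∃ U ∈ 𝓛.sets, ∀ u ∈ U, ∀ a ∈ s, ρ u a = a := by
  classical
  induction s using Finset.induction_on with
  | empty =>
    obtain ⟨U, hU⟩ := 𝓛.nonempty
    exact ⟨U, hU, fun _ _ _ h => absurd h (Finset.notMem_empty _)⟩
  | insert a s _ ih =>
    obtain ⟨U, hU, h⟩ := ih
    obtain ⟨V, hV, h'⟩ := hρ a
    obtain ⟨W, hW, hWU⟩ := 𝓛.inter U hU V hV
    refine ⟨W, hW, fun u hu b hb => ?_⟩
    rcases Finset.mem_insert.1 hb with rfl | hb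
    · exact h' u (hWU hu).2
    · exact h u (hWU hu).1 b hb

variable {𝓛 ρ} in
/-- a smooth action on a finite module factors through a level -/
theorem smooth_uniform [Finite A] (hρ : Smooth 𝓛 ρ) : ∃ U ∈ 𝓛.sets, ∀ u ∈ U, ∀ a, ρ u a = a := by
  have := Fintype.ofFinite A
  obtain ⟨U, hU, h⟩ := exists_level_finset hρ (Finset.univ : Finset A)
  exact ⟨U, hU, fun u hu a => h u hu a (Finset.mem_univ a)⟩

/-- `r : H → G` has dense image -/
def DenseHom (r : H →* G) : Prop := ∀ U ∈ 𝓛.sets, ∀ g : G, ∃ h : H, g⁻¹ * r h ∈ U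

variable {𝓛 ρ} {r : H →* G}

/-- a level constant function which is a `d⁰` on a dense subgroup is a `d⁰` -/
theorem eq_d0_of_dense (hr : DenseHom 𝓛 r) (hρ : Smooth 𝓛 ρ) {f : G → A} (hf : LC1 𝓛 f) {a : A}
    (h : ∀ t, f (r t) = ρ (r t) a - a) : f = d0 ρ a := by
  obtain ⟨U, hU, hfU⟩ := hf
  obtain ⟨V, hV, haV⟩ := hρ a
  obtain ⟨W, hW, hWU⟩ := 𝓛.inter U hU V hV
  ext g
  obtain ⟨t, ht⟩ := hr W hW g
  have h1 : r t = g * (g⁻¹ * r t) := by group
  have h2 : f (r t) = f g := by rw [h1]; exact hfU g _ (hWU ht).1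
  have h3 : ρ (r t) a = ρ g a := by
    rw [h1, map_mul, AddMonoid.End.coe_mul, Function.comp_apply, haV _ (hWU ht).2]
  rw [d0_apply, ← h2, h t, h3]

/-- a level constant 2-cochain which is a level coboundary on a dense subgroup is a level
coboundary -/
theorem mem_B2_of_dense [Finite A] (hr : DenseHom 𝓛 r) (hρ : Smooth 𝓛 ρ) {f : G → G → A}
    (hf : LC2 𝓛 f) {y : H → A} (hy : LC1 (𝓛.comap r) y)
    (h : ∀ s t, f (r s) (r t) = ρ (r s) (y t) - y (s * t) + y s) : f ∈ B2 𝓛 ρ := by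
  obtain ⟨U0, hU0, hfU⟩ := hf
  obtain ⟨_, ⟨U1, hU1, rfl⟩, hyU⟩ := hy
  obtain ⟨U2, hU2, hρU⟩ := smooth_uniform hρ
  obtain ⟨W1, hW1, hW1U⟩ := 𝓛.inter U0 hU0 U1 hU1
  obtain ⟨W2, hW2, hW2U⟩ := 𝓛.inter W1 hW1 U2 hU2
  obtain ⟨W, hW, hWW2, hWn⟩ := 𝓛.normal W2 hW2
  have hWU0 : W ≤ U0 := fun x hx => (hW1U (hW2U (hWW2 hx)).1).1
  have hWU1 : W ≤ U1 := fun x hx => (hW1U (hW2U (hWW2 hx)).1).2
  have hWU2 : W ≤ U2 := fun x hx => (hW2U (hWW2 hx)).2
  choose t ht using hr W hW
  have key : ∀ (g : G) (s : H), g⁻¹ * r s ∈ W → y s = y (t g) := by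
    intro g s hs
    have h1 : r ((t g)⁻¹ * s) ∈ W := by
      have : r ((t g)⁻¹ * s) = (g⁻¹ * r (t g))⁻¹ * (g⁻¹ * r s) := by
        rw [map_mul, map_inv]; group
      rw [this]
      exact W.mul_mem (W.inv_mem (ht g)) hs
    have h2 := hyU (t g) ((t g)⁻¹ * s) (hWU1 h1)
    rwa [mul_inv_cancel_left] at h2
  refine ⟨fun g => y (t g), ⟨W, hW, fun g u hu => ?_⟩, ?_⟩
  · refine key g (t (g * u)) ?_
    have : g⁻¹ * r (t (g * u)) = u * ((g * u)⁻¹ * r (t (g * u))) := by group
    rw [this]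
    exact W.mul_mem hu (ht _)
  · ext g g'
    have h1 : r (t g) = g * (g⁻¹ * r (t g)) := by group
    have h1' : r (t g') = g' * (g'⁻¹ * r (t g')) := by group
    have h2 : f (r (t g)) (r (t g')) = f g g' := by
      rw [h1, h1']
      exact hfU g g' _ (hWU0 (ht g)) _ (hWU0 (ht g'))
    have h3 : ρ (r (t g)) (y (t g')) = ρ g (y (t g')) := by
      rw [h1, map_mul, AddMonoid.End.coe_mul, Function.comp_apply, hρU _ (hWU2 (ht g))]
    have h4 : y (t g * t g') = y (t (g * g')) := by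
      refine key (g * g') (t g * t g') ?_
      have : (g * g')⁻¹ * r (t g * t g') =
          (g'⁻¹ * (g⁻¹ * r (t g)) * g'⁻¹⁻¹) * (g'⁻¹ * r (t g')) := by
        rw [map_mul]; group
      rw [this]
      exact W.mul_mem (hWn.conj_mem _ (ht g) _) (ht g')
    rw [d1_apply, ← h2, h, h3, h4]

end Dense

section FiniteGroup

variable {k C A : Type*} [CommRing k] [Group C] [Fintype C] [AddCommGroup A] [Module k A]
  (ρ : Representation k C A) (u : k) (hu : u * (Fintype.card C : k) = 1)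

include hu

/-- `H¹` of a finite group of invertible order vanishes -/
theorem exists_d0_of_finite (f : C → A) (hf : ∀ g h, f (g * h) = ρ g (f h) + f g) :
    ∃ m, ∀ g, f g = ρ g m - m := by
  refine ⟨-(u • ∑ h, f h), fun g => ?_⟩
  have h1 : ρ g (∑ h, f h) = ∑ h, f h - (Fintype.card C : k) • f g := by
    rw [map_sum]
    have : ∀ h, ρ g (f h) = f (g * h) - f g := fun h => by rw [hf g h]; abel
    simp only [this, Finset.sum_sub_distrib, Finset.sum_const, Finset.card_univ]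
    rw [Fintype.sum_equiv (Equiv.mulLeft g) (fun h => f (g * h)) f (fun _ => rfl), Nat.cast_smul_eq_nsmul]
  rw [map_neg, map_smul, h1, smul_sub, smul_smul, hu, one_smul]
  abel

/-- `H²` of a finite group of invertible order vanishes, with an explicit primitive -/
theorem eq_d1_of_finite (f : C × C → A)
    (hf : ∀ g h j, f (g * h, j) + f (g, h) = ρ g (f (h, j)) + f (g, h * j)) (g h : C) :
    f (g, h) = ρ g (u • ∑ j, f (h, j)) - u • ∑ j, f (g * h, j) + u • ∑ j, f (g, j) := by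
  have h1 : ∑ j, f (g * h, j) + (Fintype.card C : k) • f (g, h) =
      ρ g (∑ j, f (h, j)) + ∑ j, f (g, j) := by
    rw [map_sum, ← Fintype.sum_equiv (Equiv.mulLeft h) (fun j => f (g, h * j)) (fun j => f (g, j))
      (fun _ => rfl), ← Finset.sum_add_distrib]
    simp only [← hf g h, Finset.sum_add_distrib, Finset.sum_const, Finset.card_univ]
    rw [Nat.cast_smul_eq_nsmul]
  have h2 : f (g, h) = u • ((Fintype.card C : k) • f (g, h)) := by
    rw [smul_smul, hu, one_smul]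
  have h3 : (Fintype.card C : k) • f (g, h) =
      ρ g (∑ j, f (h, j)) + ∑ j, f (g, j) - ∑ j, f (g * h, j) := by
    rw [← h1]; abel
  rw [h2, h3, map_smul, smul_sub, smul_add]
  abel

end FiniteGroup

end Fermat.Agent.S55.E
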