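import Fermat.Agent.S55.E.Loc

/-!
# S55, layer E: `continuousH2S`, `sha₂` of the Prelude versus `H2 (lvlS S)`, `Sha2S`
-/

set_option autoImplicit false

namespace Fermat.Agent.S55.E

open Fermat.Agent.S55 ExtCitation groupCohomology

variable {k : Type} [CommRing k] (S : Finset Nat.Primes) (M : Rep.{0} k GQ)

/-- uncurrying of 2-cocycles -/
def unc2 : ↥(Z2 (lvlS S) (rhoOf M)) →+ ↥(levelCocyclesS₂ S M) where
  toFun f := ⟨fun x => (f : GQ → GQ → M) x.1 x.2,
    (mem_cocycles₂_iff _).2 (fun g h j => f.2.2 g h j),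
    (lc2_lvlS_iff (S := S) (fun x : GQ × GQ => (f : GQ → GQ → M) x.1 x.2)).1 f.2.1⟩
  map_zero' := rfl
  map_add' _ _ := rfl

@[simp] theorem unc2_apply (f : ↥(Z2 (lvlS S) (rhoOf M))) (g h : GQ) :
    (unc2 S M f : GQ × GQ → M) (g, h) = (f : GQ → GQ → M) g h := rfl

theorem unc2_mem_iff (f : ↥(Z2 (lvlS S) (rhoOf M))) :
    (unc2 S M f : GQ × GQ → M) ∈ levelCoboundariesS₂ S M ↔
      (f : GQ → GQ → M) ∈ B2 (lvlS S) (rhoOf M) := by
  rw [mem_levelCoboundariesS₂_iff, mem_B2]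
  constructor
  · rintro ⟨x, hx, h⟩
    refine ⟨x, (lc1_lvlS_iff x).2 hx, ?_⟩
    ext g g'
    have := congrFun h (g, g')
    rw [d₁₂_hom_apply] at this
    exact this.symm
  · rintro ⟨x, hx, h⟩
    refine ⟨x, (lc1_lvlS_iff x).1 hx, ?_⟩
    ext ⟨g, g'⟩
    rw [d₁₂_hom_apply, unc2_apply, h]
    rfl

/-- the comparison map -/
noncomputable def Psi2 : H2 (lvlS S) (rhoOf M) →+ continuousH2S S M :=
  QuotientAddGroup.lift _ ((continuousH2Sπ S M).toAddMonoidHom.comp (unc2 S M)) (fun f hf => by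
    change continuousH2Sπ S M (unc2 S M f) = 0
    rw [continuousH2Sπ_eq_zero_iff, unc2_mem_iff]
    exact AddSubgroup.mem_addSubgroupOf.1 hf)

@[simp] theorem Psi2_mk (f : ↥(Z2 (lvlS S) (rhoOf M))) :
    Psi2 S M (H2.mk _ _ f) = continuousH2Sπ S M (unc2 S M f) := rfl

theorem Psi2_injective : Function.Injective (Psi2 S M) := by
  rw [injective_iff_map_eq_zero]
  intro x hx
  obtain ⟨f, rfl⟩ := H2.mk_surjective _ _ x
  rw [Psi2_mk, continuousH2Sπ_eq_zero_iff, unc2_mem_iff] at hx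
  exact (H2.mk_eq_zero_iff _ _ f).2 hx

theorem unc2_surjective : Function.Surjective (unc2 S M) := by
  intro c
  refine ⟨⟨fun g h => (c : GQ × GQ → M) (g, h), (lc2_lvlS_iff _).2 c.2.2,
    fun g h j => (mem_cocycles₂_iff _).1 c.2.1 g h j⟩, ?_⟩
  ext ⟨g, h⟩
  rfl

theorem Psi2_surjective : Function.Surjective (Psi2 S M) := by
  intro x
  obtain ⟨c, rfl⟩ := Submodule.mkQ_surjective _ x
  obtain ⟨f, rfl⟩ := unc2_surjective S M c
  exact ⟨H2.mk _ _ f, rfl⟩

/-! ### the local conditions -/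

/-- unfolding of the Prelude localisation map on representatives -/
theorem locRes₂S_eq_zero_iff {H : Type} [Group H] (r : H →* GQ) (c : ↥(levelCocyclesS₂ S M)) :
    locRes₂S S M r (continuousH2Sπ S M c) = 0 ↔
      ∃ x : H → M, IsLevelConstant₁ r x ∧
        ∀ s t, (c : GQ × GQ → M) (r s, r t) = M.ρ (r s) (x t) - x (s * t) + x s := by
  have h0 : locRes₂S S M r (continuousH2Sπ S M c) =
      continuousH2π r (Rep.res r M)
        (levelCocycles₂Map (rH := MonoidHom.id _) (rG := r) r (fun _ => rfl)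
          (LinearMap.id : M →ₗ[k] Rep.res r M) (fun _ _ => rfl)
          (levelCocyclesS₂ToLevelCocycles₂ S M c)) := rfl
  rw [h0, continuousH2π_eq_zero_iff, mem_levelCoboundaries₂_iff]
  constructor
  · rintro ⟨x, hx, h⟩
    refine ⟨x, hx, fun s t => ?_⟩
    have := congrFun h (s, t)
    rw [d₁₂_hom_apply] at this
    exact this.symm
  · rintro ⟨x, hx, h⟩
    refine ⟨x, hx, ?_⟩
    ext ⟨s, t⟩
    rw [d₁₂_hom_apply]
    exact (h s t).symm

theorem loc2_infl2_mk_eq_zero_iff {A : Type*} [AddCommGroup A] (ρ : GQ →* AddMonoid.End A)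
    (q : Nat.Primes) (f : ↥(Z2 (lvlS S) ρ)) :
    loc2 ρ q (infl2 S ρ (H2.mk _ _ f)) = 0 ↔
      (fun g h : ↥(Dq q) => (f : GQ → GQ → A) g h) ∈ B2 (lvlD q) (ρ.comp (Dq q).subtype) :=
  H2.mk_eq_zero_iff _ _
    (Z2map (LvlMap.comap lvlQ (Dq q).subtype) (isHomAlong_res ρ (Dq q).subtype)
        (Z2map (φ := AddMonoidHom.id A) (ρB := ρ) (lvlMap_infl S) (fun _ _ => rfl) f))

theorem lc2_Dq {X : Type*} {f : GQ → GQ → X} (hf : LC2 (lvlS S) f) (q : Nat.Primes) :
    LC2 (lvlD q) (fun g h : ↥(Dq q) => f g h) :=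
  (LC2.of_lvlS hf).pp (LvlMap.comap lvlQ (Dq q).subtype) id

theorem lc1_Dq {X : Type*} {f : GQ → X} (hf : LC1 (lvlS S) f) (q : Nat.Primes) :
    LC1 (lvlD q) (fun g : ↥(Dq q) => f g) :=
  (LC1.of_lvlS hf).pp (LvlMap.comap lvlQ (Dq q).subtype) id

/-- the condition at a prime -/
theorem locRes₂S_prime_iff [Finite M] (hρ : Smooth lvlQ (rhoOf M)) (q : Nat.Primes)
    (f : ↥(Z2 (lvlS S) (rhoOf M))) :
    locRes₂S S M (primeLocalToGlobal q) (continuousH2Sπ S M (unc2 S M f)) = 0 ↔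
      loc2 (rhoOf M) q (infl2 S (rhoOf M) (H2.mk _ _ f)) = 0 := by
  rw [loc2_infl2_mk_eq_zero_iff, locRes₂S_eq_zero_iff]
  constructor
  · rintro ⟨x, hx, h⟩
    exact mem_B2_of_dense (denseHom_locD q) (smooth_Dq hρ q) (lc2_Dq S f.2.1 q)
      ((lc1_locD_iff q x).2 hx) h
  · rintro ⟨y, hy, h⟩
    refine ⟨fun t => y (locD q t), ?_, fun s t => ?_⟩
    · rw [← lc1_locD_iff]
      exact hy.pp (LvlMap.comap (lvlD q) (locD q)) id
    · have := congrFun (congrFun h (locD q s)) (locD q t)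
      rw [d1_apply, ← map_mul] at this
      exact this

theorem exists_inv_card_arch (h2 : IsUnit (2 : k)) [Fintype ↥archimedeanDecomposition] :
    ∃ u : k, u * (Fintype.card ↥archimedeanDecomposition : k) = 1 := by
  have h1 : Fintype.card ↥archimedeanDecomposition = orderOf complexConjugation := by
    rw [Fintype.card_eq_nat_card]
    exact Nat.card_zpowers complexConjugation
  have h3 : orderOf complexConjugation ∣ 2 := orderOf_dvd_of_pow_eq_one complexConjugation_sq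
  rcases (Nat.dvd_prime Nat.prime_two).1 h3 with h | h
  · exact ⟨1, by rw [h1, h]; simp⟩
  · obtain ⟨v, hv⟩ := h2
    exact ⟨((v⁻¹ : kˣ) : k), by rw [h1, h, Nat.cast_ofNat, ← hv, Units.inv_mul]⟩

theorem finite_arch : Finite ↥archimedeanDecomposition := by
  have h : IsOfFinOrder complexConjugation :=
    isOfFinOrder_iff_pow_eq_one.2 ⟨2, by norm_num, complexConjugation_sq⟩
  exact (finite_zpowers.2 h).to_subtype

/-- the condition at the archimedean place is empty -/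
theorem locRes₂S_arch (h2 : IsUnit (2 : k)) (c : ↥(levelCocyclesS₂ S M)) :
    locRes₂S S M archimedeanLoc (continuousH2Sπ S M c) = 0 := by
  have := finite_arch
  have := Fintype.ofFinite ↥archimedeanDecomposition
  obtain ⟨u, hu⟩ := exists_inv_card_arch h2
  rw [locRes₂S_eq_zero_iff]
  refine ⟨fun s => u • ∑ j, (c : GQ × GQ → M) (archimedeanLoc s, archimedeanLoc j), ?_,
    fun s t => ?_⟩
  · obtain ⟨F, hF, h⟩ := c.2.2
    refine ⟨F, hF.1, fun g s hs => ?_⟩
    have : ∀ j, (c : GQ × GQ → M) (archimedeanLoc (g * s), archimedeanLoc j) =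
        (c : GQ × GQ → M) (archimedeanLoc g, archimedeanLoc j) := fun j => by
      have := h (archimedeanLoc g) (archimedeanLoc j) (archimedeanLoc s) 1 hs (one_mem _)
      rwa [mul_one, ← map_mul] at this
    simp only [this]
  · have := eq_d1_of_finite (M.ρ.comp archimedeanLoc) u hu
      (fun x => (c : GQ × GQ → M) (archimedeanLoc x.1, archimedeanLoc x.2))
      (fun g h j => by
        have := (mem_cocycles₂_iff _).1 c.2.1 (archimedeanLoc g) (archimedeanLoc h)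
          (archimedeanLoc j)
        rw [← map_mul, ← map_mul] at this
        exact this) s t
    exact this

theorem mem_sha₂_iff (x : continuousH2S S M) :
    x ∈ sha₂ S M ↔ ∀ v, locRes₂S S M (extArithLoc S v) x = 0 := by
  rw [sha₂, LinearMap.mem_ker, funext_iff]
  rfl

theorem Psi2_mem_sha₂_iff [Finite M] (h2 : IsUnit (2 : k)) (hρ : Smooth lvlQ (rhoOf M))
    (x : H2 (lvlS S) (rhoOf M)) : Psi2 S M x ∈ sha₂ S M ↔ x ∈ Sha2S S (rhoOf M) := by
  obtain ⟨f, rfl⟩ := H2.mk_surjective _ _ x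
  rw [mem_sha₂_iff, Psi2_mk]
  constructor
  · intro h q hq
    exact (locRes₂S_prime_iff S M hρ q f).1 (h (Sum.inr ⟨q, hq⟩))
  · rintro h (v | ⟨q, hq⟩)
    · exact locRes₂S_arch S M h2 _
    · exact (locRes₂S_prime_iff S M hρ q f).2 (h q hq)

/-- `Ш²`: Prelude versus `Coh` -/
theorem card_sha₂ [Finite M] (h2 : IsUnit (2 : k)) (hρ : Smooth lvlQ (rhoOf M)) :
    Nonempty (↥(Sha2S S (rhoOf M)) ≃ ↥(sha₂ S M)) := by
  refine ⟨Equiv.ofBijective
    (fun x => ⟨Psi2 S M x.1, (Psi2_mem_sha₂_iff S M h2 hρ x.1).2 x.2⟩) ⟨?_, ?_⟩⟩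
  · intro x y h
    exact Subtype.ext (Psi2_injective S M (congrArg Subtype.val h))
  · rintro ⟨y, hy⟩
    obtain ⟨x, rfl⟩ := Psi2_surjective S M y
    exact ⟨⟨x, (Psi2_mem_sha₂_iff S M h2 hρ x).1 hy⟩, rfl⟩

end Fermat.Agent.S55.E
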