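import Mathlib
import Fermat.Prelude.Def_GroupCohomology_ContinuousUnramified

/-!
# S55, layer E: inertia groups under conjugation; normal closures of fields unramified outside `S`
-/

set_option autoImplicit false

open scoped Pointwise

namespace Fermat.Agent.S55.E

section General

variable {K L : Type*} [Field K] [Field L] [Algebra K L]

theorem mem_nonunits_iff' (A : ValuationSubring L) (z : L) :
    z ∈ A.nonunits ↔ z = 0 ∨ z⁻¹ ∉ A := by
  rw [ValuationSubring.mem_nonunits_iff]
  rcases eq_or_ne z 0 with rfl | hz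
  · simp
  · rw [← A.valuation_le_one_iff, map_inv₀, not_le]
    have hv : A.valuation z ≠ 0 := (Valuation.ne_zero_iff _).mpr hz
    constructor
    · intro h
      exact Or.inr ((one_lt_inv₀ (zero_lt_iff.mpr hv)).mpr h)
    · rintro (h | h)
      · exact absurd h hz
      · exact (one_lt_inv₀ (zero_lt_iff.mpr hv)).mp h

theorem smul_mem_smul_iff (A : ValuationSubring L) (g : L ≃ₐ[K] L) (x : L) :
    g x ∈ g • A ↔ x ∈ A := by
  rw [ValuationSubring.mem_pointwise_smul_iff_inv_smul_mem, AlgEquiv.smul_def]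
  have : g⁻¹ (g x) = x := by rw [← AlgEquiv.mul_apply, inv_mul_cancel, AlgEquiv.one_apply]
  rw [this]

theorem smul_mem_nonunits_iff (A : ValuationSubring L) (g : L ≃ₐ[K] L) (x : L) :
    g x ∈ (g • A).nonunits ↔ x ∈ A.nonunits := by
  rw [mem_nonunits_iff', mem_nonunits_iff', ← map_inv₀, smul_mem_smul_iff, map_eq_zero_iff g g.injective]

theorem liesOverPrime_smul {A : ValuationSubring L} {q : ℕ} (hA : A.LiesOverPrime q)
    (g : L ≃ₐ[K] L) : (g • A).LiesOverPrime q := by
  have h := (smul_mem_nonunits_iff A g (q : L)).mpr hA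
  rwa [map_natCast] at h

theorem mem_inertiaSubgroupIn_iff (A : ValuationSubring L) (τ : L ≃ₐ[K] L) :
    τ ∈ A.inertiaSubgroupIn K ↔
      τ ∈ A.decompositionSubgroup K ∧ ∀ x ∈ A, τ x - x ∈ A.nonunits := by
  constructor
  · intro h
    obtain ⟨g, hg, rfl⟩ := Subgroup.mem_map.mp h
    refine ⟨g.2, fun x hx => ?_⟩
    have h1 : MulSemiringAction.toRingAut (A.decompositionSubgroup K)
      (IsLocalRing.ResidueField A) g = 1 := hg
    have h2 : g • IsLocalRing.residue A ⟨x, hx⟩ = IsLocalRing.residue A ⟨x, hx⟩ := by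
      have := RingEquiv.congr_fun h1 (IsLocalRing.residue A ⟨x, hx⟩)
      exact this
    rw [← IsLocalRing.ResidueField.residue_smul, ← sub_eq_zero, ← map_sub,
      IsLocalRing.residue_eq_zero_iff] at h2
    rw [ValuationSubring.mem_nonunits_iff_exists_mem_maximalIdeal]
    exact ⟨_, h2⟩
  · rintro ⟨hd, h⟩
    refine Subgroup.mem_map.mpr ⟨⟨τ, hd⟩, ?_, rfl⟩
    change MulSemiringAction.toRingAut (A.decompositionSubgroup K)
      (IsLocalRing.ResidueField A) ⟨τ, hd⟩ = 1
    ext y
    change (⟨τ, hd⟩ : A.decompositionSubgroup K) • y = y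
    obtain ⟨a, rfl⟩ := IsLocalRing.residue_surjective y
    rw [← IsLocalRing.ResidueField.residue_smul, ← sub_eq_zero, ← map_sub,
      IsLocalRing.residue_eq_zero_iff]
    have h1 := h a a.2
    rw [ValuationSubring.mem_nonunits_iff_exists_mem_maximalIdeal] at h1
    obtain ⟨h2, h3⟩ := h1
    exact h3

theorem conj_mem_decomposition_smul {A : ValuationSubring L} {τ : L ≃ₐ[K] L}
    (hτ : τ ∈ A.decompositionSubgroup K) (g : L ≃ₐ[K] L) :
    g * τ * g⁻¹ ∈ (g • A).decompositionSubgroup K := by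
  have h : τ • A = A := hτ
  change (g * τ * g⁻¹) • (g • A) = g • A
  rw [mul_smul, mul_smul, inv_smul_smul, h]

theorem conj_mem_inertia_smul {A : ValuationSubring L} {τ : L ≃ₐ[K] L}
    (hτ : τ ∈ A.inertiaSubgroupIn K) (g : L ≃ₐ[K] L) :
    g * τ * g⁻¹ ∈ (g • A).inertiaSubgroupIn K := by
  rw [mem_inertiaSubgroupIn_iff] at hτ ⊢
  refine ⟨conj_mem_decomposition_smul hτ.1 g, fun x hx => ?_⟩
  have hx' : g⁻¹ x ∈ A := by
    rw [ValuationSubring.mem_pointwise_smul_iff_inv_smul_mem] at hx
    exact hx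
  have h1 := hτ.2 _ hx'
  rw [← smul_mem_nonunits_iff A g, map_sub] at h1
  have h2 : g (g⁻¹ x) = x := by rw [← AlgEquiv.mul_apply, mul_inv_cancel, AlgEquiv.one_apply]
  rw [h2] at h1
  exact h1

end General

local notation "Qbar" => AlgebraicClosure ℚ
local notation "GQ" => (AlgebraicClosure ℚ ≃ₐ[ℚ] AlgebraicClosure ℚ)

local instance isAlgebraicQbar_e2 : Algebra.IsAlgebraic ℚ (AlgebraicClosure ℚ) :=
  AlgebraicClosure.isAlgebraic ℚ
local instance isAlgClosureQbar_e2 : IsAlgClosure ℚ (AlgebraicClosure ℚ) :=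
  ⟨inferInstance, inferInstance⟩
local instance normalQbar_e2 : Normal ℚ (AlgebraicClosure ℚ) :=
  IsAlgClosure.normal ℚ (AlgebraicClosure ℚ)

/-- conjugates of a field unramified outside `S` are unramified outside `S` -/
theorem isUnramifiedOutside_map {S : Finset Nat.Primes} {F : IntermediateField ℚ Qbar}
    (hF : F.IsUnramifiedOutside S) (g : GQ) : (F.map (g : Qbar →ₐ[ℚ] Qbar)).IsUnramifiedOutside S := by
  have := hF.1
  refine ⟨?_, fun q hq A hA τ hτ => ?_⟩
  · exact LinearEquiv.finiteDimensional (F.equivMap (g : Qbar →ₐ[ℚ] Qbar)).toLinearEquiv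
  · rw [IntermediateField.mem_fixingSubgroup_iff]
    rintro _ ⟨x, hx, rfl⟩
    have h1 := conj_mem_inertia_smul hτ g⁻¹
    have h2 := hF.2 q hq (g⁻¹ • A) (liesOverPrime_smul hA g⁻¹) h1
    have h3 := (IntermediateField.mem_fixingSubgroup_iff F _).mp h2 x hx
    rw [inv_inv, AlgEquiv.mul_apply, AlgEquiv.mul_apply] at h3
    have h4 := congrArg g h3
    rw [← AlgEquiv.mul_apply g g⁻¹, mul_inv_cancel, AlgEquiv.one_apply] at h4
    exact h4

/-- the normal closure of a field unramified outside `S` is unramified outside `S` -/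
theorem isUnramifiedOutside_normalClosure {S : Finset Nat.Primes} {F : IntermediateField ℚ Qbar}
    (hF : F.IsUnramifiedOutside S) :
    (IntermediateField.normalClosure ℚ F Qbar).IsUnramifiedOutside S := by
  have := hF.1
  refine ⟨normalClosure.is_finiteDimensional ℚ F Qbar, fun q hq A hA τ hτ => ?_⟩
  rw [IntermediateField.mem_fixingSubgroup_iff]
  have hle : IntermediateField.normalClosure ℚ F Qbar ≤
      IntermediateField.fixedField (Subgroup.zpowers τ) := by
    refine (IntermediateField.normalClosure_def'' F).le.trans ?_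
    refine iSup_le fun g => ?_
    intro x hx
    rw [IntermediateField.mem_fixedField_iff]
    intro f hf
    have h1 := (isUnramifiedOutside_map hF g).2 q hq A hA hτ
    have h2 : f ∈ (F.map (g : Qbar →ₐ[ℚ] Qbar)).fixingSubgroup :=
      (Subgroup.zpowers_le.mpr h1) hf
    exact (IntermediateField.mem_fixingSubgroup_iff _ f).mp h2 x hx
  intro x hx
  exact (IntermediateField.mem_fixedField_iff _ x).mp (hle hx) τ (Subgroup.mem_zpowers τ)

end Fermat.Agent.S55.E
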