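import Fermat.Agent.S55.Coh.Arith
import Fermat.Agent.S55.E.Abs
import Fermat.Agent.S55.E.Dense

/-!
# S55, layer E: dictionary between the Prelude notions and `Coh`

* `rhoOf M` : the action of a `Rep` as a homomorphism to `AddMonoid.End`,
* `locD q` : the Prelude map `primeLocalToGlobal q`, corestricted to `Dq q`; it has dense image,
* level constancy.
-/

set_option autoImplicit false

namespace Fermat.Agent.S55.E

open Fermat.Agent.S55 ExtCitation groupCohomology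

/-- the action of a `Rep` -/
def rhoOf {k G : Type} [CommRing k] [Group G] (M : Rep.{0} k G) : G →* AddMonoid.End M where
  toFun g := (M.ρ g).toAddMonoidHom
  map_one' := by ext x; rw [map_one]; rfl
  map_mul' g h := by ext x; rw [map_mul]; rfl

@[simp] theorem rhoOf_apply {k G : Type} [CommRing k] [Group G] (M : Rep.{0} k G) (g : G) (x : M) :
    rhoOf M g x = M.ρ g x := rfl

/-- `primeLocalToGlobal q` as a map to the decomposition group -/
noncomputable def locD (q : Nat.Primes) : primeLocalGaloisGroup q →* ↥(Dq q) :=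
  (primeLocalToGlobal q).codRestrict (Dq q) (fun τ =>
    letI : Fact (q : ℕ).Prime := ⟨q.2⟩
    localGaloisToGlobal_mem_decompositionSubgroup (q : ℕ) τ)

@[simp] theorem coe_locD (q : Nat.Primes) (τ : primeLocalGaloisGroup q) :
    ((locD q τ : ↥(Dq q)) : GQ) = primeLocalToGlobal q τ := rfl

theorem denseHom_locD (q : Nat.Primes) : DenseHom (lvlD q) (locD q) := by
  rintro _ ⟨_, ⟨F, hF, rfl⟩, rfl⟩ g
  let _ : Fact (q : ℕ).Prime := ⟨q.2⟩
  obtain ⟨τ, hτ⟩ := exists_local_eq (q : ℕ) (σ := (g : GQ)) g.2 F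
  refine ⟨τ, ?_⟩
  rw [Subgroup.mem_comap, IntermediateField.mem_fixingSubgroup_iff]
  intro x hx
  have h1 : ((Dq q).subtype (g⁻¹ * locD q τ)) x = (g : GQ)⁻¹ (localGaloisToGlobal (q : ℕ) τ x) := rfl
  rw [h1, hτ x hx, ← AlgEquiv.mul_apply, inv_mul_cancel, AlgEquiv.one_apply]

/-! ### level constancy -/

theorem lc1_lvlS_iff {S : Finset Nat.Primes} {X : Type*} (f : GQ → X) :
    LC1 (lvlS S) f ↔ IsLevelConstantS₁ S f := by
  constructor
  · rintro ⟨_, ⟨F, hF, rfl⟩, h⟩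
    exact ⟨F, hF, fun g s hs => h g s hs⟩
  · rintro ⟨F, hF, h⟩
    exact ⟨_, ⟨F, hF, rfl⟩, fun g s hs => h g s hs⟩

theorem lc2_lvlS_iff {S : Finset Nat.Primes} {X : Type*} (f : GQ × GQ → X) :
    LC2 (lvlS S) (fun g h => f (g, h)) ↔ IsLevelConstantS₂ S f := by
  constructor
  · rintro ⟨_, ⟨F, hF, rfl⟩, h⟩
    exact ⟨F, hF, fun g g' s s' hs hs' => h g g' s hs s' hs'⟩
  · rintro ⟨F, hF, h⟩
    exact ⟨_, ⟨F, hF, rfl⟩, fun g g' s hs s' hs' => h g g' s s' hs hs'⟩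

theorem lc1_comap_iff {H : Type} [Group H] (r : H →* GQ) {X : Type*} (f : H → X) :
    LC1 (lvlQ.comap r) f ↔ IsLevelConstant₁ r f := by
  constructor
  · rintro ⟨_, ⟨_, ⟨F, hF, rfl⟩, rfl⟩, h⟩
    exact ⟨F, hF, fun g s hs => h g s hs⟩
  · rintro ⟨F, hF, h⟩
    exact ⟨_, ⟨_, ⟨F, hF, rfl⟩, rfl⟩, fun g s hs => h g s hs⟩

theorem lc1_locD_iff (q : Nat.Primes) {X : Type*} (f : primeLocalGaloisGroup q → X) :
    LC1 ((lvlD q).comap (locD q)) f ↔ IsLevelConstant₁ (primeLocalToGlobal q) f := by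
  constructor
  · rintro ⟨_, ⟨_, ⟨_, ⟨F, hF, rfl⟩, rfl⟩, rfl⟩, h⟩
    exact ⟨F, hF, fun g s hs => h g s hs⟩
  · rintro ⟨F, hF, h⟩
    exact ⟨_, ⟨_, ⟨_, ⟨F, hF, rfl⟩, rfl⟩, rfl⟩, fun g s hs => h g s hs⟩

theorem LC1.of_lvlS {S : Finset Nat.Primes} {X : Type*} {f : GQ → X} (h : LC1 (lvlS S) f) :
    LC1 lvlQ f := by
  obtain ⟨U, hU, h⟩ := h
  exact ⟨U, lvlS_sets_subset S hU, h⟩

theorem LC2.of_lvlS {S : Finset Nat.Primes} {X : Type*} {f : GQ → GQ → X} (h : LC2 (lvlS S) f) :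
    LC2 lvlQ f := by
  obtain ⟨U, hU, h⟩ := h
  exact ⟨U, lvlS_sets_subset S hU, h⟩

/-- smoothness restricts to the decomposition group -/
theorem smooth_Dq {A : Type*} [AddCommGroup A] {ρ : GQ →* AddMonoid.End A} (hρ : Smooth lvlQ ρ)
    (q : Nat.Primes) : Smooth (lvlD q) (ρ.comp (Dq q).subtype) := fun a => by
  obtain ⟨U, hU, h⟩ := hρ a
  exact ⟨_, ⟨U, hU, rfl⟩, fun u hu => h _ hu⟩

end Fermat.Agent.S55.E
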